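import Fermat.Agent.S36.Mod.Chart.Defs
import Fermat.Agent.S36.Val.Disc

/-!
# S36 / Mod / Disc / Glue : from `Val.Setup.XData` (helper41, `Val/Disc.lean`) to the hypotheses `db1`, `db2` of `Chart.towerF`

Extra inputs: `M0`, `M1` integrally closed in `F0`, `F1`; `x1 = x(q^l) ∈ M1` integral over `M0`, `be x1 ∈ M2` integral over `M1`.
The discriminants are integral, hence in `M0`, `M1`; divide by `π` repeatedly with `Chart.sat0`, `Chart.sat1`.
-/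

set_option autoImplicit false
set_option linter.style.haveILetI false

namespace Fermat.Agent.S36.Mod

open Fermat.Agent.Crux.G.QLink Fermat.Agent.S36.Val Fermat.Agent.S36.R Fermat.Agent.S36.Norm

/-- the discriminant of the powers of an integral element lies in an integrally closed subring. -/
theorem Disc.discrHom_mem {F E : Type*} [Field F] [Field E] (φ : F →+* E) (hφ : FinHom φ)
    (M : Subring F)
    (hic : ∀ f : F, M.subtype.IsIntegralElem f → f ∈ M) (n : ℕ) (θ : E)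
    (hθ : (φ.comp M.subtype).IsIntegralElem θ) : discrHom φ n θ ∈ M := by
  letI := φ.toAlgebra
  haveI : Module.Finite F E := hφ
  letI : Algebra M E := (φ.comp M.subtype).toAlgebra
  haveI : IsScalarTower M F E := IsScalarTower.of_algebraMap_eq fun _ => rfl
  apply hic
  have h : IsIntegral M (Algebra.discr F (fun i : Fin n => θ ^ (i : ℕ))) :=
    Algebra.discr_isIntegral F fun i => IsIntegral.pow hθ _
  exact h

variable {l : ℕ} {K F0 F1 F2 Ω O κ Ω1 O1 ι μ : Type*} [Field K] [Field F0] [Field F1]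
    [Field F2] [Field Ω] [CommRing O] [Field κ] [Field Ω1] [CommRing O1] [Fintype ι]
    [Fintype μ]

namespace Chart

variable {S : Setup l K F0 F1 F2 Ω O κ Ω1 O1 ι μ} {i₀ : ι} {b0 : F0 →+* F1}
    {w1 : F1 →+* F1} {w2 : F2 →+* F2}
    {M0 : Subring F0} {M1 : Subring F1} {M2 : Subring F2}
    (C : Chart S i₀ b0 w1 w2 M0 M1 M2)

include C

/-- divide by `π` at level 0. -/
theorem Disc_div0 (n : ℕ) : ∀ (δ : F0), S.cst S.π ^ n * δ ∈ M0 → (∃ k : ℤ, 0 ≤ k ∧ S.R.Ord k δ) →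
    δ ∈ M0 := by
  have hπ : S.cst S.π ≠ 0 := S.R.ord_ne_zero (Setup.XData.ord_pi0 (S := S))
  induction n with
  | zero => intro δ h _; simpa using h
  | succ n ih =>
    intro δ h hk
    obtain ⟨k, hk0, hk⟩ := hk
    have h1 : S.cst S.π * δ ∈ M0 := by
      refine ih _ (by rw [← mul_assoc, ← pow_succ]; exact h) ⟨1 + k, by omega, ?_⟩
      exact S.R.ord_mul (Setup.XData.ord_pi0 (S := S)) hk
    have h2 := C.sat0 _ h1 (by
      rw [mul_div_cancel_left₀ _ hπ]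
      exact IsOrd.inV S.P hk hk0)
    rwa [mul_div_cancel_left₀ _ hπ] at h2

/-- divide by `π` at level 1. -/
theorem Disc_div1 (n : ℕ) : ∀ (δ : F1), S.a0 (S.cst S.π) ^ n * δ ∈ M1 →
    (∃ k : ℤ, 0 ≤ k ∧ S.Qinf.Ord k δ) → (∃ k : ℤ, 0 ≤ k ∧ S.Q0.Ord k δ) → δ ∈ M1 := by
  have hπ : S.a0 (S.cst S.π) ≠ 0 := S.Qinf.ord_ne_zero (Setup.XData.ord_pi_inf (S := S))
  induction n with
  | zero => intro δ h _ _; simpa using h
  | succ n ih =>
    intro δ h hk hk'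
    obtain ⟨k, hk0, hk⟩ := hk
    obtain ⟨k', hk0', hk'⟩ := hk'
    have h1 : S.a0 (S.cst S.π) * δ ∈ M1 := by
      refine ih _ (by rw [← mul_assoc, ← pow_succ]; exact h) ⟨1 + k, by omega, ?_⟩
        ⟨1 + k', by omega, ?_⟩
      · exact S.Qinf.ord_mul (Setup.XData.ord_pi_inf (S := S)) hk
      · exact S.Q0.ord_mul (Setup.XData.ord_pi_zero (S := S)) hk'
    have h2 := C.sat1 _ h1 (by
      rw [mul_div_cancel_left₀ _ hπ]
      exact ⟨IsOrd.inV S.P hk hk0, IsOrd.inV S.P hk' hk0'⟩)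
    rwa [mul_div_cancel_left₀ _ hπ] at h2

/-- **(db1)** in the form of `Chart.towerF`. -/
theorem db1_of_xdata [CharZero F0] (hl : 2 ≤ l) (D : S.XData) (hx1 : D.x1 ∈ M1)
    (hic : ∀ f : F0, M0.subtype.IsIntegralElem f → f ∈ M0)
    (hint : (S.a0.comp M0.subtype).IsIntegralElem D.x1) :
    ∃ (θ : M1) (δ : M0), C.ρ0 δ ≠ 0 ∧
      discrHom S.a0 (l + 1) (θ : F1) = ((C.pi ^ l * δ : M0) : F0) := by
  obtain ⟨δ, hδ, hord⟩ := D.exists_delta1 hl
  have hmem : δ ∈ M0 := C.Disc_div0 l δ (by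
    rw [← hδ]; exact Disc.discrHom_mem S.a0 D.fin0 M0 hic _ _ hint) ⟨0, le_rfl, hord⟩
  refine ⟨⟨D.x1, hx1⟩, ⟨δ, hmem⟩, ?_, hδ⟩
  obtain ⟨c, hc, hres⟩ := S.R.ord_zero_iff.1 hord
  intro h0
  apply hc
  have h1 : C.r0 ⟨δ, hmem⟩ = 0 := by rw [← C.coe_ρ0, h0]; rfl
  rw [← h1]
  exact S.R.res_unique hres (C.res_r0 ⟨δ, hmem⟩)

/-- **(db2)** in the form of `Chart.towerF`. -/
theorem db2_of_xdata [CharZero F1] (hl : 2 ≤ l) (D : S.XData) (hx1 : D.x1 ∈ M1)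
    (hic : ∀ f : F1, M1.subtype.IsIntegralElem f → f ∈ M1)
    (hint : (S.al.comp M1.subtype).IsIntegralElem (S.be D.x1)) :
    ∃ (θ : M2) (δ : M1), C.ρ1 0 δ ≠ 0 ∧
      discrHom S.al l (θ : F2) = ((C.α C.pi ^ (l - 2) * δ : M1) : F1) := by
  obtain ⟨δ, hδ, hord, hord'⟩ := D.exists_delta2 hl
  have hmem : δ ∈ M1 := C.Disc_div1 (l - 2) δ (by
    rw [← hδ]; exact Disc.discrHom_mem S.al D.finA M1 hic _ _ hint) ⟨0, le_rfl, hord⟩
    ⟨2, by norm_num, hord'⟩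
  refine ⟨⟨S.be D.x1, C.be_mem _ hx1⟩, ⟨δ, hmem⟩, ?_, hδ⟩
  obtain ⟨c, hc, hres⟩ := S.Qinf.ord_zero_iff.1 hord
  intro h0
  apply hc
  have h1 : C.r1 0 ⟨δ, hmem⟩ = 0 := by rw [← C.coe_ρ1, h0]; rfl
  rw [← h1]
  exact S.Qinf.res_unique hres (C.res_r1_0 ⟨δ, hmem⟩)

end Chart

end Fermat.Agent.S36.Mod
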